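import Mathlib
import Fermat.Agent.GAL.HeckeCoh
import Fermat.Agent.S22.Gamma0FG

/-!
# GAL / ASM : the tensor form of the eigenvector (ASM3)

A `κ`-valued parabolic eigen-homomorphism `P` of `Γ₀(M)` gives an eigenvector in
`κ ⊗ Hom_par(Γ₀(M), 𝔽_p)`, hence in `κ ⊗ V` for every Hecke equivariant injection
`Hom_par(Γ₀(M), 𝔽_p) → V`.
-/

set_option autoImplicit false

open ModularCurve CongruenceSubgroup TensorProduct
open scoped MatrixGroups

noncomputable section

namespace Fermat.Agent.GAL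

section Abstract

variable {F κ : Type*} [Field F] [Field κ] [Algebra F κ] {Γ : Type*} [Group Γ]

/-- evaluation `κ ⊗ X → (Γ → κ)` for a space `X` of homomorphisms `Γ → F`. -/
def evK (X : Submodule F (Additive Γ →+ F)) : κ ⊗[F] X →ₗ[F] (Γ → κ) :=
  TensorProduct.lift (LinearMap.mk₂ F
    (fun (k : κ) (Q : X) (γ : Γ) => (Q : Additive Γ →+ F) (Additive.ofMul γ) • k)
    (by intros; ext; simp [smul_add]) (by intro c m n; ext γ; exact smul_comm _ _ _)
    (by intros; ext; simp [add_smul]) (by intros; ext; simp [mul_smul]))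

theorem evK_tmul (X : Submodule F (Additive Γ →+ F)) (k : κ) (Q : X) (γ : Γ) :
    evK X (k ⊗ₜ[F] Q) γ = (Q : Additive Γ →+ F) (Additive.ofMul γ) • k := by
  simp [evK]

theorem evK_sum {I : Type*} (ℬ : Module.Basis I F κ) (X : Submodule F (Additive Γ →+ F))
    (c : I →₀ X) (γ : Γ) :
    evK X (c.sum fun i n => ℬ i ⊗ₜ[F] n) γ =
      ∑ i ∈ c.support, (c i : Additive Γ →+ F) (Additive.ofMul γ) • ℬ i := by
  rw [Finsupp.sum, map_sum, Finset.sum_apply]
  exact Finset.sum_congr rfl fun i _ => evK_tmul X _ _ γ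

theorem evK_injective (X : Submodule F (Additive Γ →+ F)) :
    Function.Injective (evK (κ := κ) X) := by
  rw [injective_iff_map_eq_zero]
  intro x hx
  obtain ⟨c, rfl⟩ := TensorProduct.eq_repr_basis_left (Module.Basis.ofVectorSpace F κ) x
  have hc : c = 0 := by
    ext i γ
    by_cases hi : i ∈ c.support
    · have h := congrFun hx γ
      rw [evK_sum] at h
      have := linearIndependent_iff'.mp (Module.Basis.ofVectorSpace F κ).linearIndependent
        c.support (fun i => (c i : Additive Γ →+ F) (Additive.ofMul γ)) (by simpa using h) i hi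
      simpa using this
    · rw [Finsupp.notMem_support_iff] at hi
      simp [hi]
  simp [hc]

theorem evK_smul (X : Submodule F (Additive Γ →+ F)) (a : κ) (x : κ ⊗[F] X) (γ : Γ) :
    evK X (a • x) γ = a * evK X x γ := by
  induction x with
  | zero => simp
  | tmul k Q => rw [TensorProduct.smul_tmul', evK_tmul, evK_tmul]; simp
  | add x y hx hy => rw [smul_add, map_add, map_add, Pi.add_apply, Pi.add_apply, hx, hy, mul_add]

/-- the coordinates of a `κ`-valued homomorphism of a finitely generated group. -/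
theorem exists_finsupp_coord (hΓ : Group.FG Γ) {I : Type*} (ℬ : Module.Basis I F κ)
    (X : Submodule F (Additive Γ →+ F)) (P : Additive Γ →+ κ)
    (hPX : ∀ f : κ →ₗ[F] F, f.toAddMonoidHom.comp P ∈ X) :
    ∃ c : I →₀ X, ∀ i γ, (c i : Additive Γ →+ F) γ = ℬ.repr (P γ) i := by
  classical
  obtain ⟨S, hS⟩ := hΓ.out
  let Q : I → X := fun i => ⟨(ℬ.coord i).toAddMonoidHom.comp P, hPX _⟩
  have hQ : ∀ i γ, (Q i : Additive Γ →+ F) γ = ℬ.repr (P γ) i := fun i γ => rfl
  let J : Finset I := S.biUnion fun s => (ℬ.repr (P (Additive.ofMul s))).support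
  have hJ : ∀ i, Q i ≠ 0 → i ∈ J := by
    intro i hi
    by_contra hiJ
    apply hi
    have hgen : ∀ s ∈ S, (Q i : Additive Γ →+ F) (Additive.ofMul s) = 0 := by
      intro s hs
      rw [hQ]
      by_contra hne
      exact hiJ (Finset.mem_biUnion.mpr ⟨s, hs, Finsupp.mem_support_iff.mpr hne⟩)
    have hall : ∀ γ : Γ, (Q i : Additive Γ →+ F) (Additive.ofMul γ) = 0 := by
      intro γ
      have hγ : γ ∈ Subgroup.closure (S : Set Γ) := hS ▸ Subgroup.mem_top γ
      induction hγ using Subgroup.closure_induction with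
      | mem x hx => exact hgen x hx
      | one => simp
      | mul x y _ _ hx hy => rw [ofMul_mul, map_add, hx, hy, add_zero]
      | inv x _ hx => rw [ofMul_inv, map_neg, hx, neg_zero]
    ext γ
    exact hall (Additive.toMul γ)
  exact ⟨Finsupp.onFinset J Q hJ, fun i γ => hQ i γ⟩

end Abstract

/-- (HK1) as a contract. -/
def HK1Statement : Prop :=
  ∀ (M ℓ : ℕ) [NeZero M], ℓ.Prime → ¬ ℓ ∣ M → ∀ {A : Type} [AddCommGroup A]
    (P : Additive (Gamma0 M) →+ A) (γ : Gamma0 M),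
    heckeCoh M ℓ P (Additive.ofMul γ) = heckeCohFun M ℓ P γ

/-- (HK2) as a contract. -/
def HK2Statement : Prop :=
  ∀ (M ℓ : ℕ) [NeZero M], ℓ.Prime → ¬ ℓ ∣ M → ∀ {A : Type} [AddCommGroup A]
    (P : Additive (Gamma0 M) →+ A), Period.IsParabolicHom (Gamma0 M) P →
    Period.IsParabolicHom (Gamma0 M) (heckeCoh M ℓ P)

/-- (ASM3) a `κ`-valued parabolic eigen-homomorphism gives an eigenvector in `κ ⊗ V`. -/
theorem exists_eigenvector_tensor (h1 : HK1Statement) (h2 : HK2Statement) (M p : ℕ) [NeZero M]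
    [Fact p.Prime] {κ : Type} [Field κ] [Algebra (ZMod p) κ]
    (P : Additive (Gamma0 M) →+ κ) (hP : Period.IsParabolicHom (Gamma0 M) P) (hP0 : P ≠ 0)
    (a : ℕ → κ) (hev : ∀ ℓ : ℕ, ℓ.Prime → ¬ ℓ ∣ M → heckeCoh M ℓ P = a ℓ • P)
    {V : Type} [AddCommGroup V] [Module (ZMod p) V] (T : ℕ → Module.End (ZMod p) V)
    (Ψ : Period.parabolicHoms (ZMod p) (Gamma0 M) (ZMod p) →ₗ[ZMod p] V)
    (hΨ : Function.Injective Ψ)
    (hT : ∀ ℓ : ℕ, ℓ.Prime → ¬ ℓ ∣ M →
      ∀ P Q : Period.parabolicHoms (ZMod p) (Gamma0 M) (ZMod p),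
        (Q : Additive (Gamma0 M) →+ ZMod p) = heckeCoh M ℓ (P : Additive (Gamma0 M) →+ ZMod p) →
        T ℓ (Ψ P) = Ψ Q) :
    ∃ v : κ ⊗[ZMod p] V, v ≠ 0 ∧
      ∀ ℓ : ℕ, ℓ.Prime → ¬ ℓ ∣ M → (T ℓ).baseChange κ v = a ℓ • v := by
  classical
  let X := Period.parabolicHoms (ZMod p) (Gamma0 M) (ZMod p)
  let ℬ := Module.Basis.ofVectorSpace (ZMod p) κ
  have hfg : Group.FG (Gamma0 M) := (Group.fg_iff_subgroup_fg _).mpr (Fermat.Agent.S22.gamma0_fg M)
  obtain ⟨c, hc⟩ := exists_finsupp_coord hfg ℬ X P (by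
    intro f γ hγ
    show f (P (Additive.ofMul γ)) = 0
    rw [hP γ hγ, map_zero])
  set x₀ : κ ⊗[ZMod p] X := c.sum fun i n => ℬ i ⊗ₜ[ZMod p] n with hx₀
  have hsum : ∀ γ : Gamma0 M,
      ∑ i ∈ c.support, (c i : Additive (Gamma0 M) →+ ZMod p) (Additive.ofMul γ) • ℬ i =
        P (Additive.ofMul γ) := by
    intro γ
    conv_rhs => rw [← ℬ.linearCombination_repr (P (Additive.ofMul γ)),
      Finsupp.linearCombination_apply, Finsupp.sum]
    symm
    refine (Finset.sum_subset ?_ ?_).trans (Finset.sum_congr rfl fun i _ => by rw [hc])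
    · intro i hi
      rw [Finsupp.mem_support_iff] at hi ⊢
      intro h0
      apply hi
      rw [← hc, h0]
      rfl
    · intro i _ hi
      rw [Finsupp.notMem_support_iff] at hi
      rw [hi, zero_smul]
  have hev₀ : ∀ γ : Gamma0 M, evK X x₀ γ = P (Additive.ofMul γ) := by
    intro γ
    rw [hx₀, evK_sum, hsum]
  have hx₀ne : x₀ ≠ 0 := by
    intro h0
    apply hP0
    refine AddMonoidHom.ext fun γ => ?_
    have := hev₀ (Additive.toMul γ)
    rw [h0] at this
    simpa using this.symm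
  have hinj : Function.Injective (Ψ.baseChange κ) := by
    rw [LinearMap.baseChange_eq_ltensor]
    exact Module.Flat.lTensor_preserves_injective_linearMap Ψ hΨ
  refine ⟨Ψ.baseChange κ x₀, fun h => hx₀ne (hinj (by rw [h, map_zero])), ?_⟩
  intro ℓ hℓ hℓM
  let Q' : _ → X := fun i => ⟨heckeCoh M ℓ (c i : Additive (Gamma0 M) →+ ZMod p),
    h2 M ℓ hℓ hℓM _ (c i).2⟩
  have hx₁ : ∑ i ∈ c.support, ℬ i ⊗ₜ[ZMod p] Q' i = a ℓ • x₀ := by
    apply evK_injective X
    funext γ
    rw [evK_smul, hev₀, map_sum, Finset.sum_apply]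
    have : ∀ i ∈ c.support, evK X (ℬ i ⊗ₜ[ZMod p] Q' i) γ =
        ∑ k : Option (Fin ℓ),
          (c i : Additive (Gamma0 M) →+ ZMod p) (Additive.ofMul (heckeCoc M ℓ γ k)) • ℬ i := by
      intro i _
      rw [evK_tmul]
      show heckeCoh M ℓ (c i : Additive (Gamma0 M) →+ ZMod p) (Additive.ofMul γ) • ℬ i = _
      rw [h1 M ℓ hℓ hℓM, heckeCohFun, Finset.sum_smul]
    rw [Finset.sum_congr rfl this, Finset.sum_comm]
    simp_rw [hsum]
    have h3 := h1 M ℓ hℓ hℓM P γ
    rw [heckeCohFun] at h3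
    rw [← h3, hev ℓ hℓ hℓM]
    rfl
  rw [← map_smul, ← hx₁, hx₀, Finsupp.sum, map_sum, map_sum, map_sum]
  refine Finset.sum_congr rfl fun i _ => ?_
  rw [LinearMap.baseChange_tmul, LinearMap.baseChange_tmul, LinearMap.baseChange_tmul,
    hT ℓ hℓ hℓM (c i) (Q' i) rfl]

end Fermat.Agent.GAL
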