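import Mathlib
import Fermat.Agent.GR.Quadratic
import Fermat.Agent.S53.Burnside
import Fermat.Agent.GR.Adic.TraceRigid

/-!
# GAL / ASM : rigid two dimensional representations

A representation is *rigid* if an element `τ` such that `g τ` and `g` have the same characteristic
polynomial for all `g` acts trivially.  The two dimensional representations produced by block (F)
(irreducible planes, or sums of two characters) are rigid.
-/

set_option autoImplicit false

namespace Fermat.Agent.GAL

open Module Polynomial Fermat.Agent.GR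

section

variable {G : Type*} {κ W : Type*} [Field κ] [Group G] [AddCommGroup W] [Module κ W]
  [FiniteDimensional κ W]

/-- `τ` acts trivially as soon as `g τ` and `g` have the same characteristic polynomial for all
`g`. -/
def IsRigidRep (ρ : G →* Module.End κ W) : Prop :=
  ∀ τ : G, (∀ g, (ρ (g * τ)).charpoly = (ρ g).charpoly) → ρ τ = 1

theorem trace_det_eq_of_charpoly_eq {W' : Type*} [AddCommGroup W'] [Module κ W']
    [FiniteDimensional κ W'] (h2 : finrank κ W = 2) (h2' : finrank κ W' = 2)
    (S : Module.End κ W) (T : Module.End κ W') (h : S.charpoly = T.charpoly) :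
    LinearMap.trace κ W S = LinearMap.trace κ W' T ∧ LinearMap.det S = LinearMap.det T := by
  rw [charpoly_eq_of_finrank_two h2 S, charpoly_eq_of_finrank_two h2' T] at h
  have h1 := congrArg (fun P : κ[X] => P.coeff 1) h
  have h0 := congrArg (fun P : κ[X] => P.coeff 0) h
  simp [coeff_X, coeff_C] at h1 h0
  exact ⟨h1, h0⟩

theorem isRigidRep_of_irreducible [IsAlgClosed κ] (h2 : finrank κ W = 2)
    (ρ : G →* Module.End κ W)
    (hirr : ∀ U : Submodule κ W, (∀ g, ∀ x ∈ U, ρ g x ∈ U) → U = ⊥ ∨ U = ⊤) :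
    IsRigidRep ρ := by
  intro τ hτ
  have htop : Algebra.adjoin κ (Set.range ρ) = ⊤ := by
    apply Fermat.Agent.S53.subalgebra_eq_top_of_irreducible h2
    intro U hU
    exact hirr U fun g x hx => hU (ρ g) (Algebra.subset_adjoin ⟨g, rfl⟩) x hx
  have hspan : Submodule.span κ (Set.range ρ) = ⊤ := by
    have h1 := Algebra.adjoin_eq_span κ (Set.range ρ)
    have h3 : (Submonoid.closure (Set.range ρ) : Set (Module.End κ W)) = Set.range ρ := by
      rw [← MonoidHom.coe_mrange, Submonoid.closure_eq]
    rw [h3, htop] at h1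
    exact h1.symm
  have hδ : ρ τ - 1 = 0 := by
    apply Fermat.Agent.GR.Adic.eq_zero_of_forall_trace_mul_eq_zero
    intro x
    have hx : x ∈ Submodule.span κ (Set.range ρ) := by rw [hspan]; trivial
    induction hx using Submodule.span_induction with
    | mem y hy =>
      obtain ⟨g, rfl⟩ := hy
      rw [mul_sub, mul_one, ← map_mul, map_sub, sub_eq_zero]
      exact (trace_det_eq_of_charpoly_eq h2 h2 _ _ (hτ g)).1
    | zero => simp
    | add y z _ _ hy hz => rw [add_mul, map_add, hy, hz, add_zero]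
    | smul c y _ hy => rw [smul_mul_assoc, map_smul, hy, smul_zero]
  exact sub_eq_zero.mp hδ

end

section

universe u

variable {G : Type*} {κ V : Type u} [Field κ] [Group G] [AddCommGroup V] [Module κ V]

theorem isRigidRep_diagRep (ψ ψ' : G →* κ) : IsRigidRep (diagRep ψ ψ') := by
  intro τ hτ
  have h := hτ 1
  rw [one_mul, charpoly_diagRep, charpoly_diagRep, map_one, map_one] at h
  have h1 := congrArg (fun P : κ[X] => P.coeff 1) h
  have h0 := congrArg (fun P : κ[X] => P.coeff 0) h
  simp only [coeff_add, coeff_sub, coeff_X_pow, coeff_C_mul, coeff_X, coeff_C] at h1 h0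
  norm_num at h1 h0
  have hsq : (ψ τ - 1) * (ψ τ - 1) = 0 := by
    linear_combination (-(ψ τ)) * h1 - h0
  have hψ : ψ τ = 1 := sub_eq_zero.mp (mul_self_eq_zero.mp hsq)
  have hψ' : ψ' τ = 1 := by rw [hψ, one_mul] at h0; exact h0
  ext <;> simp [diagRep, hψ, hψ']

/-- **(F3')** the representation produced by block (F) can be chosen rigid. -/
theorem exists_two_dim_rigid [IsAlgClosed κ] [FiniteDimensional κ V] [Nontrivial V]
    (ρ : G →* Module.End κ V) (χ : G →* κˣ)
    (hrel : ∀ g, ∃ a : κ, ρ g * ρ g - a • ρ g + ((χ g : κˣ) : κ) • 1 = 0) :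
    ∃ (W : Type u) (_ : AddCommGroup W) (_ : Module κ W) (_ : FiniteDimensional κ W)
      (ρ' : G →* Module.End κ W), Module.finrank κ W = 2 ∧ IsRigidRep ρ' ∧
      (∀ (g : G) (a : κ), ρ g * ρ g - a • ρ g + ((χ g : κˣ) : κ) • 1 = 0 →
        (ρ' g).charpoly = X ^ 2 - C a * X + C ((χ g : κˣ) : κ)) ∧
      (∀ g, ρ g = 1 → χ g = 1 → ρ' g = 1) := by
  obtain ⟨U, hU0, hUinv, hUmin⟩ := exists_minimal_invariant ρ
  set ρU := restrictRep ρ U hUinv with hρU
  have hrelU : ∀ (g : G) (a : κ), ρ g * ρ g - a • ρ g + ((χ g : κˣ) : κ) • 1 = 0 →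
      ρU g * ρU g - a • ρU g + ((χ g : κˣ) : κ) • 1 = 0 := by
    intro g a ha
    ext x
    have h1 := congrArg (fun f : Module.End κ V => f (x : V)) ha
    simpa [hρU] using h1
  have hirrU : ∀ U' : Submodule κ U, (∀ g, ∀ x ∈ U', ρU g x ∈ U') → U' = ⊥ ∨ U' = ⊤ := by
    intro U' hU'
    rcases hUmin (U'.map U.subtype) (Submodule.map_subtype_le U U') (by
      rintro g _ ⟨x, hx, rfl⟩
      exact ⟨ρU g x, hU' g x hx, rfl⟩) with h | h
    · left
      rw [eq_bot_iff]
      intro x hx
      have hx' : (x : V) ∈ U'.map U.subtype := ⟨x, hx, rfl⟩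
      rw [h] at hx'
      exact (Submodule.mem_bot κ).2 (Subtype.ext ((Submodule.mem_bot κ).1 hx'))
    · right
      rw [eq_top_iff]
      intro x _
      have hx : (x : V) ∈ U'.map U.subtype := by rw [h]; exact x.2
      obtain ⟨y, hy, hyx⟩ := hx
      have : y = x := Subtype.ext hyx
      rwa [← this]
  have hle : Module.finrank κ U ≤ 2 :=
    finrank_le_two_of_quadratic ρU χ (fun g => (hrel g).imp fun a ha => hrelU g a ha) hirrU
  have hpos : 0 < Module.finrank κ U := by
    rw [Module.finrank_pos_iff_exists_ne_zero]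
    obtain ⟨x, hx, hx0⟩ := Submodule.exists_mem_ne_zero_of_ne_bot hU0
    exact ⟨⟨x, hx⟩, fun h => hx0 (congrArg Subtype.val h)⟩
  rcases (by omega : Module.finrank κ U = 2 ∨ Module.finrank κ U = 1) with h2 | h1
  · refine ⟨U, inferInstance, inferInstance, inferInstance, ρU, h2,
      isRigidRep_of_irreducible h2 ρU hirrU, ?_, ?_⟩
    · intro g a ha
      exact charpoly_eq_of_quadratic ρU χ h2
        (fun g => (hrel g).imp fun a ha => hrelU g a ha) hirrU g a (hrelU g a ha)
    · intro g hg _
      ext x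
      simp [hρU, hg]
  · -- one dimensional case
    obtain ⟨u₀, hu₀⟩ : ∃ u₀ : U, u₀ ≠ 0 := Module.finrank_pos_iff_exists_ne_zero.1 hpos
    have hspan := (finrank_eq_one_iff_of_nonzero' u₀ hu₀).1 h1
    choose ψ hψ using fun g => hspan (ρU g u₀)
    have hinj : ∀ c d : κ, c • u₀ = d • u₀ → c = d := by
      intro c d h
      have h3 : (c - d) • u₀ = 0 := by rw [sub_smul, h, sub_self]
      exact sub_eq_zero.1 ((smul_eq_zero.1 h3).resolve_right hu₀)
    have hψ1 : ψ 1 = 1 := by
      apply hinj
      rw [hψ, map_one, one_smul]; rfl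
    have hψmul : ∀ g h, ψ (g * h) = ψ g * ψ h := by
      intro g h
      apply hinj
      rw [hψ, map_mul, Module.End.mul_apply, ← hψ h, map_smul, ← hψ g, smul_smul, mul_comm]
    let ψ₁ : G →* κ := { toFun := ψ, map_one' := hψ1, map_mul' := hψmul }
    have hψne : ∀ g, ψ g ≠ 0 := by
      intro g h0
      have h3 := hψmul g g⁻¹
      rw [mul_inv_cancel, hψ1, h0, zero_mul] at h3
      exact one_ne_zero h3
    let ψ₂ : G →* κ :=
      { toFun := fun g => ((χ g : κˣ) : κ) * (ψ g)⁻¹
        map_one' := by simp [hψ1]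
        map_mul' := fun g h => by
          simp only [map_mul, Units.val_mul, hψmul, mul_inv]
          ring }
    refine ⟨κ × κ, inferInstance, inferInstance, inferInstance, diagRep ψ₁ ψ₂, ?_,
      isRigidRep_diagRep ψ₁ ψ₂, ?_, ?_⟩
    · rw [Module.finrank_prod, Module.finrank_self]
    · intro g a ha
      rw [charpoly_diagRep]
      have h3 := congrArg (fun f : Module.End κ U => f u₀) (hrelU g a ha)
      simp only [LinearMap.add_apply, LinearMap.sub_apply, Module.End.mul_apply,
        LinearMap.smul_apply, Module.End.one_apply, LinearMap.zero_apply] at h3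
      rw [← hψ g, map_smul, ← hψ g, smul_smul, smul_smul, ← sub_smul, ← add_smul] at h3
      have h4 : ψ g * ψ g - a * ψ g + ((χ g : κˣ) : κ) = 0 :=
        (smul_eq_zero.1 h3).resolve_right hu₀
      have e1 : ψ₁ g + ψ₂ g = a := by
        show ψ g + ((χ g : κˣ) : κ) * (ψ g)⁻¹ = a
        have := hψne g
        field_simp
        linear_combination h4
      have e2 : ψ₁ g * ψ₂ g = ((χ g : κˣ) : κ) := by
        show ψ g * (((χ g : κˣ) : κ) * (ψ g)⁻¹) = _
        have := hψne g
        field_simp
      rw [e1, e2]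
    · intro g hg hχ
      have h3 : ψ g = 1 := by
        apply hinj
        rw [hψ, one_smul]
        ext
        simp [hρU, hg]
      ext <;> simp [diagRep, ψ₁, ψ₂, h3, hχ]

end

end Fermat.Agent.GAL
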