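import Mathlib
import Fermat.Prelude.Def_GaloisRep_Residual
import Fermat.Agent.GR.Asm.Residual
import Fermat.Agent.GAL.ASM.Rigid

/-!
# GAL / ASM : gluing two residual representations with the same Frobenius polynomials
-/

set_option autoImplicit false

namespace Fermat.Agent.GAL

open ValuationSubring Polynomial Module Fermat.Agent.GR Fermat.Agent.GR.Asm

local notation "Qbar" => AlgebraicClosure ℚ
local notation "GQ'" => (AlgebraicClosure ℚ ≃ₐ[ℚ] AlgebraicClosure ℚ)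

theorem charpoly_pow_eq_of_charpoly_eq {κ W W' : Type*} [Field κ] [AddCommGroup W] [Module κ W]
    [FiniteDimensional κ W] [AddCommGroup W'] [Module κ W'] [FiniteDimensional κ W']
    (h2 : finrank κ W = 2) (h2' : finrank κ W' = 2)
    (S : Module.End κ W) (T : Module.End κ W') (h : S.charpoly = T.charpoly) (j : ℕ) :
    (S ^ j).charpoly = (T ^ j).charpoly := by
  obtain ⟨ht, hd⟩ := trace_det_eq_of_charpoly_eq h2 h2' S T h
  rw [charpoly_eq_of_finrank_two h2 (S ^ j), charpoly_eq_of_finrank_two h2' (T ^ j),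
    Fermat.Agent.GR.Adic.trace_pow_eq_lucasSeq h2 S _ _ (charpoly_eq_of_finrank_two h2 S) j,
    Fermat.Agent.GR.Adic.trace_pow_eq_lucasSeq h2' T _ _ (charpoly_eq_of_finrank_two h2' T) j,
    map_pow LinearMap.det S j, map_pow LinearMap.det T j, ht, hd]

/-- Two residual representations with the same characteristic polynomials at almost all Frobenius
elements have the same characteristic polynomials everywhere. -/
theorem charpoly_eq_of_frobenius {κ : Type} [Field κ] (ρ ρ' : ResidualGaloisRep κ)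
    {bad : ℕ} (hbad : bad ≠ 0)
    (h : ∀ ℓ : ℕ, ℓ.Prime → ¬ ℓ ∣ bad → ∀ A : ValuationSubring Qbar, A.LiesOverPrime ℓ →
        ∀ σ : GQ', A.IsFrobeniusAt σ ℓ →
          LinearMap.charpoly (ρ.ρ σ) = LinearMap.charpoly (ρ'.ρ σ))
    (hcheb : WeakChebotarev) (γ : GQ') :
    LinearMap.charpoly (ρ.ρ γ) = LinearMap.charpoly (ρ'.ρ γ) := by
  obtain ⟨L1, hL1, h1⟩ := ρ.factorsThroughFiniteLevel
  obtain ⟨L2, hL2, h2⟩ := ρ'.factorsThroughFiniteLevel
  have hLfin : FiniteDimensional ℚ (L1 ⊔ L2 : IntermediateField ℚ Qbar) :=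
    IntermediateField.finiteDimensional_sup L1 L2
  obtain ⟨ℓ, A, σ, j, hℓ, hℓT, hA, hσ, hag⟩ := hcheb (L1 ⊔ L2) hLfin bad.primeFactors γ
  have hnd : ¬ ℓ ∣ bad := by
    intro hd
    exact hℓT (Nat.mem_primeFactors.mpr ⟨hℓ, hd, hbad⟩)
  rw [map_eq_pow_of_agree ρ.ρ L1 h1 γ σ j fun x hx => hag x ((le_sup_left : L1 ≤ L1 ⊔ L2) hx),
    map_eq_pow_of_agree ρ'.ρ L2 h2 γ σ j fun x hx => hag x ((le_sup_right : L2 ≤ L1 ⊔ L2) hx)]
  exact charpoly_pow_eq_of_charpoly_eq ρ.finrank_eq ρ'.finrank_eq _ _ (h ℓ hℓ hnd A hA σ hσ) j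

/-- Unramifiedness passes from `ρ'` to a rigid `ρ` with the same characteristic polynomials. -/
theorem isUnramifiedAt_of_charpoly_eq {κ : Type} [Field κ] (ρ ρ' : ResidualGaloisRep κ)
    (hrig : IsRigidRep ρ.ρ)
    (hall : ∀ γ : GQ', LinearMap.charpoly (ρ.ρ γ) = LinearMap.charpoly (ρ'.ρ γ))
    {q : ℕ} (h : ρ'.IsUnramifiedAt q) : ρ.IsUnramifiedAt q := by
  intro A hA τ hτ
  apply hrig
  intro g
  rw [hall (g * τ), map_mul, h A hA τ hτ, mul_one, hall g]

end Fermat.Agent.GAL
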