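import Mathlib
import Fermat.Prelude.Def_GaloisRep_Residual
import Fermat.Agent.GR.Asm.Residual
import Fermat.Agent.GAL.ASM.Rigid

/-!
# GAL / ASM : from a finite dimensional Eichler–Shimura module to a rigid residual representation
-/

set_option autoImplicit false

namespace Fermat.Agent.GAL

open ExtCitation ValuationSubring Polynomial Fermat.Agent.GR Fermat.Agent.GR.Asm

local notation "Qbar" => AlgebraicClosure ℚ
local notation "GQ'" => (AlgebraicClosure ℚ ≃ₐ[ℚ] AlgebraicClosure ℚ)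

theorem ne_of_not_dvd_of_dvd {p bad ℓ : ℕ} (hp : p ∣ bad) (h : ¬ ℓ ∣ bad) : ℓ ≠ p := by
  rintro rfl
  exact h hp

/-- A nonzero finite dimensional representation of finite level, unramified outside `bad`, whose
Frobenius elements outside `bad` satisfy `σ² - a_ℓ σ + ℓ = 0`, gives a rigid two dimensional
representation with these characteristic polynomials. -/
theorem exists_rep_of_module (p : ℕ) [hpp : Fact p.Prime]
    (κ : Type) [Field κ] [IsAlgClosed κ] [CharP κ p] {bad : ℕ} (hbad : bad ≠ 0) (hp : p ∣ bad)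
    (a : ℕ → κ) (V : Type) [AddCommGroup V] [Module κ V] [FiniteDimensional κ V] [Nontrivial V]
    (ρ : GQ' →* Module.End κ V) (hfin : GaloisFactorsThroughFiniteLevel ρ)
    (hur : ∀ ℓ : ℕ, ℓ.Prime → ¬ ℓ ∣ bad → ∀ A : ValuationSubring Qbar, A.LiesOverPrime ℓ →
      ∀ σ ∈ A.inertiaSubgroupIn ℚ, ρ σ = 1)
    (hES : ∀ ℓ : ℕ, ℓ.Prime → ¬ ℓ ∣ bad → ∀ A : ValuationSubring Qbar, A.LiesOverPrime ℓ →
      ∀ σ : GQ', A.IsFrobeniusAt σ ℓ → ρ σ * ρ σ - a ℓ • ρ σ + (ℓ : κ) • 1 = 0)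
    (hcheb : WeakChebotarev) :
    ∃ ρ' : ResidualGaloisRep κ, IsRigidRep ρ'.ρ ∧
      (∀ ℓ : ℕ, ℓ.Prime → ¬ ℓ ∣ bad → ∀ A : ValuationSubring Qbar, A.LiesOverPrime ℓ →
        ∀ σ : GQ', A.IsFrobeniusAt σ ℓ →
          LinearMap.charpoly (ρ'.ρ σ) = X ^ 2 - C (a ℓ) * X + C ((ℓ : κ))) ∧
      (∀ ℓ : ℕ, ℓ.Prime → ¬ ℓ ∣ bad → ρ'.IsUnramifiedAt ℓ) := by
  obtain ⟨L1, hL1, h1⟩ := hfin
  obtain ⟨L2, hL2, h2⟩ := cycloChar_finiteLevel p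
  set χ := cycloCharK p κ with hχ
  have h2' : ∀ σ : GQ', (∀ x ∈ L2, σ x = x) → χ σ = 1 := fun σ hσ =>
    cycloCharK_eq_one p κ (h2 σ hσ)
  have hLfin : FiniteDimensional ℚ (L1 ⊔ L2 : IntermediateField ℚ Qbar) :=
    IntermediateField.finiteDimensional_sup L1 L2
  let Φ : Set GQ' := {σ | ∃ (ℓ : ℕ) (A : ValuationSubring Qbar), ℓ.Prime ∧ ¬ ℓ ∣ bad ∧
    A.LiesOverPrime ℓ ∧ A.IsFrobeniusAt σ ℓ}
  have hΦ : ∀ g : GQ', ∃ f ∈ Φ, ∃ j : ℕ, ρ g = ρ f ^ j ∧ χ g = χ f ^ j := by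
    intro γ
    obtain ⟨ℓ, A, σ, j, hℓ, hℓT, hA, hσ, hag⟩ := hcheb (L1 ⊔ L2) hLfin bad.primeFactors γ
    have hnd : ¬ ℓ ∣ bad := by
      intro hd
      exact hℓT (Nat.mem_primeFactors.mpr ⟨hℓ, hd, hbad⟩)
    refine ⟨σ, ⟨ℓ, A, hℓ, hnd, hA, hσ⟩, j, ?_, ?_⟩
    · exact map_eq_pow_of_agree ρ L1 h1 γ σ j fun x hx => hag x ((le_sup_left : L1 ≤ L1 ⊔ L2) hx)
    · exact map_eq_pow_of_agree χ L2 h2' γ σ j
        fun x hx => hag x ((le_sup_right : L2 ≤ L1 ⊔ L2) hx)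
  have hrelΦ : ∀ f ∈ Φ, ∃ a : κ, ρ f * ρ f - a • ρ f + ((χ f : κˣ) : κ) • 1 = 0 := by
    rintro f ⟨ℓ, A, hℓ, hnd, hA, hf⟩
    refine ⟨a ℓ, ?_⟩
    rw [hχ, cycloCharK_frobenius p κ A f hℓ (ne_of_not_dvd_of_dvd hp hnd) hA hf]
    exact hES ℓ hℓ hnd A hA f hf
  have hrel := rel_of_generators ρ χ Φ hΦ hrelΦ
  obtain ⟨W, _, _, _, ρ', hW, hrig, hchar, htriv⟩ := exists_two_dim_rigid ρ χ hrel
  refine ⟨{ V := W, finrank_eq := hW, ρ := ρ', factorsThroughFiniteLevel := ?_ }, ?_, ?_, ?_⟩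
  · refine ⟨L1 ⊔ L2, hLfin, fun σ hσ => htriv σ ?_ ?_⟩
    · exact h1 σ fun x hx => hσ x ((le_sup_left : L1 ≤ L1 ⊔ L2) hx)
    · exact h2' σ fun x hx => hσ x ((le_sup_right : L2 ≤ L1 ⊔ L2) hx)
  · exact hrig
  · intro ℓ hℓ hnd A hA σ hσ
    have hχσ := cycloCharK_frobenius p κ A σ hℓ (ne_of_not_dvd_of_dvd hp hnd) hA hσ
    have := hchar σ (a ℓ) (by rw [hχ, hχσ]; exact hES ℓ hℓ hnd A hA σ hσ)
    rw [hχ, hχσ] at this
    exact this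
  · intro ℓ hℓ hnd A hA σ hσ
    exact htriv σ (hur ℓ hℓ hnd A hA σ hσ)
      (cycloCharK_eq_one p κ
        (cycloChar_inertia p A σ hℓ (ne_of_not_dvd_of_dvd hp hnd) hA hσ))

end Fermat.Agent.GAL
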