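import Mathlib
import Fermat.Prelude.Def_GaloisRep_Residual
import Fermat.Agent.GAL.ASM.Rep

/-!
# GAL / ASM : from a Hecke–Galois module and an eigenvector to a residual representation (ASM1)

The data of a Hecke–Galois module are unbundled here.
-/

set_option autoImplicit false
set_option linter.style.haveILetI false

namespace Fermat.Agent.GAL

open ValuationSubring Polynomial Module TensorProduct Fermat.Agent.GR Fermat.Agent.GR.Asm

local notation "Qbar" => AlgebraicClosure ℚ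
local notation "GQ'" => (AlgebraicClosure ℚ ≃ₐ[ℚ] AlgebraicClosure ℚ)

section

variable {R : Type} [CommRing R] {V : Type} [AddCommGroup V] [Module R V]
  (gal : GQ' →* Module.End R V) (κ : Type) [Field κ] [Algebra R κ]

/-- the Galois action on `κ ⊗ V`. -/
noncomputable def galK : GQ' →* Module.End κ (κ ⊗[R] V) :=
  ((Module.End.baseChangeHom R κ V : Module.End R V →ₐ[R] Module.End κ (κ ⊗[R] V)) :
    Module.End R V →* Module.End κ (κ ⊗[R] V)).comp gal

theorem galK_apply (σ : GQ') : galK gal κ σ = (gal σ).baseChange κ := rfl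

variable {gal}

theorem smooth_galK
    (smooth : ∀ v : V, ∃ L : IntermediateField ℚ Qbar, FiniteDimensional ℚ L ∧
      ∀ σ : GQ', (∀ x ∈ L, σ x = x) → gal σ v = v) (w : κ ⊗[R] V) :
    ∃ L : IntermediateField ℚ Qbar, FiniteDimensional ℚ L ∧
      ∀ σ : GQ', (∀ x ∈ L, σ x = x) → galK gal κ σ w = w := by
  induction w using TensorProduct.induction_on with
  | zero => exact ⟨⊥, inferInstance, fun σ _ => map_zero _⟩
  | tmul c v =>
    obtain ⟨L, hL, h⟩ := smooth v
    refine ⟨L, hL, fun σ hσ => ?_⟩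
    rw [galK_apply, LinearMap.baseChange_tmul, h σ hσ]
  | add x y hx hy =>
    obtain ⟨L1, hL1, h1⟩ := hx
    obtain ⟨L2, hL2, h2⟩ := hy
    refine ⟨L1 ⊔ L2, IntermediateField.finiteDimensional_sup L1 L2, fun σ hσ => ?_⟩
    rw [map_add, h1 σ fun x hx => hσ x ((le_sup_left : L1 ≤ L1 ⊔ L2) hx),
      h2 σ fun x hx => hσ x ((le_sup_right : L2 ≤ L1 ⊔ L2) hx)]

/-- the orbit of a smooth vector is finite. -/
theorem finite_orbit {X : Type*} [AddCommGroup X] [Module κ X] (r : GQ' →* Module.End κ X) (w : X)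
    (L : IntermediateField ℚ Qbar) [FiniteDimensional ℚ L]
    (h : ∀ σ : GQ', (∀ x ∈ L, σ x = x) → r σ w = w) :
    (Set.range fun σ : GQ' => r σ w).Finite := by
  classical
  let f : GQ' → (L →ₐ[ℚ] Qbar) := fun σ => (σ : Qbar →ₐ[ℚ] Qbar).comp L.val
  have key : ∀ σ τ : GQ', f σ = f τ → r σ w = r τ w := by
    intro σ τ hστ
    have h1 : r (τ⁻¹ * σ) w = w := by
      apply h
      intro x hx
      have h2 : σ x = τ x := congrArg (fun φ : L →ₐ[ℚ] Qbar => φ ⟨x, hx⟩) hστ
      rw [AlgEquiv.mul_apply, h2]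
      exact τ.symm_apply_apply x
    have h3 : r σ = r τ * r (τ⁻¹ * σ) := by rw [← map_mul, mul_inv_cancel_left]
    rw [h3, Module.End.mul_apply, h1]
  let F : (L →ₐ[ℚ] Qbar) → X := fun φ => if hφ : ∃ σ, f σ = φ then r hφ.choose w else 0
  refine (Set.finite_range F).subset ?_
  rintro _ ⟨σ, rfl⟩
  refine ⟨f σ, ?_⟩
  have hφ : ∃ τ, f τ = f σ := ⟨σ, rfl⟩
  show (if hφ : ∃ τ, f τ = f σ then r hφ.choose w else 0) = r σ w
  rw [dif_pos hφ]
  exact key _ _ hφ.choose_spec

/-- a finite dimensional stable subspace of a smooth representation has finite level. -/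
theorem finiteLevel_restrictRep {X : Type} [AddCommGroup X] [Module κ X]
    (r : GQ' →* Module.End κ X)
    (smooth : ∀ w : X, ∃ L : IntermediateField ℚ Qbar, FiniteDimensional ℚ L ∧
      ∀ σ : GQ', (∀ x ∈ L, σ x = x) → r σ w = w)
    (W : Submodule κ X) [FiniteDimensional κ W] (hW : ∀ g, ∀ x ∈ W, r g x ∈ W) :
    GaloisFactorsThroughFiniteLevel (restrictRep r W hW) := by
  let b := Module.finBasis κ W
  choose L hL h using fun i => smooth (b i : X)
  haveI := hL
  refine ⟨⨆ i, L i, IntermediateField.finiteDimensional_iSup_of_finite, fun σ hσ => ?_⟩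
  apply b.ext
  intro i
  apply Subtype.ext
  rw [restrictRep_apply]
  exact h i σ fun x hx => hσ x ((le_iSup L i) hx)

end

/-- **(ASM1)**, unbundled and with rigidity instead of semisimplicity. -/
theorem asm_core {p bad : ℕ} [Fact p.Prime] (hbad : bad ≠ 0) (hp : p ∣ bad)
    {V : Type} [AddCommGroup V] [Module (ZMod p) V]
    (gal : GQ' →* Module.End (ZMod p) V) (T : ℕ → Module.End (ZMod p) V)
    (comm : ∀ σ ℓ, Commute (gal σ) (T ℓ))
    (smooth : ∀ v : V, ∃ L : IntermediateField ℚ Qbar, FiniteDimensional ℚ L ∧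
      ∀ σ : GQ', (∀ x ∈ L, σ x = x) → gal σ v = v)
    (es : ∀ ℓ : ℕ, ℓ.Prime → ¬ ℓ ∣ bad → ∀ A : ValuationSubring Qbar, A.LiesOverPrime ℓ →
      ∀ σ : GQ', A.IsFrobeniusAt σ ℓ →
        gal σ * gal σ - T ℓ * gal σ + (ℓ : Module.End (ZMod p) V) = 0)
    (inertia : ∀ ℓ : ℕ, ℓ.Prime → ¬ ℓ ∣ bad → ∀ A : ValuationSubring Qbar, A.LiesOverPrime ℓ →
      ∀ σ ∈ A.inertiaSubgroupIn ℚ, gal σ = 1)
    {κ : Type} [Field κ] [IsAlgClosed κ] [Algebra (ZMod p) κ] (a : ℕ → κ)
    (v : κ ⊗[ZMod p] V) (hv : v ≠ 0)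
    (hev : ∀ ℓ : ℕ, ℓ.Prime → ¬ ℓ ∣ bad → (T ℓ).baseChange κ v = a ℓ • v)
    (hcheb : WeakChebotarev) :
    ∃ ρ : ResidualGaloisRep κ, IsRigidRep ρ.ρ ∧
      (∀ ℓ : ℕ, ℓ.Prime → ¬ ℓ ∣ bad → ∀ A : ValuationSubring Qbar, A.LiesOverPrime ℓ →
        ∀ σ : GQ', A.IsFrobeniusAt σ ℓ →
          LinearMap.charpoly (ρ.ρ σ) = X ^ 2 - C (a ℓ) * X + C ((ℓ : κ))) ∧
      (∀ ℓ : ℕ, ℓ.Prime → ¬ ℓ ∣ bad → ρ.IsUnramifiedAt ℓ) := by
  haveI : CharP κ p := charP_of_injective_algebraMap (algebraMap (ZMod p) κ).injective p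
  set r := galK gal κ with hr
  have hsm := smooth_galK (gal := gal) κ smooth
  obtain ⟨L, hL, hLv⟩ := hsm v
  have hfin : (Set.range fun σ : GQ' => r σ v).Finite := finite_orbit κ r v L hLv
  set W : Submodule κ (κ ⊗[ZMod p] V) := Submodule.span κ (Set.range fun σ : GQ' => r σ v) with hWdef
  haveI : FiniteDimensional κ W := FiniteDimensional.span_of_finite κ hfin
  have hvW : v ∈ W := Submodule.subset_span ⟨1, by simp⟩
  haveI : Nontrivial W := ⟨⟨⟨v, hvW⟩, 0, fun h => hv (congrArg Subtype.val h)⟩⟩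
  have hstab : ∀ g, ∀ x ∈ W, r g x ∈ W := by
    intro g x hx
    induction hx using Submodule.span_induction with
    | mem y hy =>
      obtain ⟨σ, rfl⟩ := hy
      refine Submodule.subset_span ⟨g * σ, ?_⟩
      simp [map_mul]
    | zero => simp
    | add y z _ _ hy hz => rw [map_add]; exact W.add_mem hy hz
    | smul c y _ hy => rw [map_smul]; exact W.smul_mem c hy
  have heig : ∀ ℓ : ℕ, ℓ.Prime → ¬ ℓ ∣ bad → ∀ x ∈ W, (T ℓ).baseChange κ x = a ℓ • x := by
    intro ℓ hℓ hnd x hx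
    induction hx using Submodule.span_induction with
    | mem y hy =>
      obtain ⟨σ, rfl⟩ := hy
      have hc : (T ℓ).baseChange κ * r σ = r σ * (T ℓ).baseChange κ := by
        rw [hr, galK_apply, ← LinearMap.baseChange_mul, ← LinearMap.baseChange_mul,
          (comm σ ℓ).eq]
      have h1 := congrArg (fun f : Module.End κ (κ ⊗[ZMod p] V) => f v) hc
      simp only [Module.End.mul_apply] at h1
      show (T ℓ).baseChange κ (r σ v) = a ℓ • r σ v
      rw [h1, hev ℓ hℓ hnd, map_smul]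
    | zero => simp
    | add y z _ _ hy hz => rw [map_add, hy, hz, smul_add]
    | smul c y _ hy => rw [map_smul, hy, smul_comm]
  refine exists_rep_of_module p κ hbad hp a W (restrictRep r W hstab)
    (finiteLevel_restrictRep κ r hsm W hstab) ?_ ?_ hcheb
  · intro ℓ hℓ hnd A hA σ hσ
    ext x
    rw [restrictRep_apply, hr, galK_apply, inertia ℓ hℓ hnd A hA σ hσ, LinearMap.baseChange_one]
    rfl
  · intro ℓ hℓ hnd A hA σ hσ
    ext x
    have h1 := congrArg (Module.End.baseChangeHom (ZMod p) κ V) (es ℓ hℓ hnd A hA σ hσ)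
    rw [map_add, map_sub, map_mul, map_mul, map_natCast, map_zero] at h1
    have h2 := congrArg (fun f : Module.End κ (κ ⊗[ZMod p] V) => f (x : κ ⊗[ZMod p] V)) h1
    simp only [LinearMap.add_apply, LinearMap.sub_apply, Module.End.mul_apply,
      LinearMap.zero_apply] at h2
    have e1 : ∀ f : Module.End (ZMod p) V,
        Module.End.baseChangeHom (ZMod p) κ V f = f.baseChange κ := fun _ => rfl
    rw [e1, e1] at h2
    have h3 : (T ℓ).baseChange κ ((gal σ).baseChange κ (x : κ ⊗[ZMod p] V))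
        = a ℓ • (gal σ).baseChange κ (x : κ ⊗[ZMod p] V) :=
      heig ℓ hℓ hnd _ (hstab σ x x.2)
    rw [h3] at h2
    simp only [LinearMap.add_apply, LinearMap.sub_apply, Module.End.mul_apply,
      LinearMap.smul_apply, Module.End.one_apply, LinearMap.zero_apply, Submodule.coe_add,
      Submodule.coe_sub, Submodule.coe_smul, restrictRep_apply, ZeroMemClass.coe_zero]
    rw [← h2]
    congr 1
    rw [Module.End.natCast_apply, Nat.cast_smul_eq_nsmul]

end Fermat.Agent.GAL
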