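import Mathlib
import Fermat.Agent.GAL.ASM.Orbit
import Fermat.Agent.GAL.ASM.Glue
import Fermat.Agent.GAL.ASM.EigenTensor
import Fermat.Agent.GR.Asm.S29Wiring

/-!
# GAL / ASM : the statement of S29 from the deliverables of the blocks HK, I (= `exists_hgm`), CHEB

The deliverables are hypotheses (`Prop`-valued contracts), so that this file is independent of the
state of the blocks.
-/

set_option autoImplicit false
set_option linter.style.haveILetI false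

open ModularCurve CongruenceSubgroup Polynomial TensorProduct
open scoped MatrixGroups

namespace Fermat.Agent.GAL

open Fermat.Agent.GR.Asm

local notation "Zbar" => integralClosure ℤ ℂ

/-- (HK3 = COH) as a contract. -/
def CohEigenStatement : Prop :=
  ∀ {N M : ℕ} [NeZero M], N ∣ M → ∀ {g : CuspForm (Gamma0 N) 2}, g.IsNormalizedEigenform →
    ∀ {κ : Type} [Field κ] (φ : integralClosure ℤ ℂ →+* κ),
    ∃ a : ℕ → integralClosure ℤ ℂ,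
      (∀ ℓ : ℕ, ℓ.Prime → ¬ ℓ ∣ N → (a ℓ : ℂ) = ModularFormClass.qCoeff g ℓ) ∧
      ∃ P : Additive (Gamma0 M) →+ κ, Period.IsParabolicHom (Gamma0 M) P ∧ P ≠ 0 ∧
        ∀ ℓ : ℕ, ℓ.Prime → ¬ ℓ ∣ M → heckeCoh M ℓ P = φ (a ℓ) • P

/-- (I) `exists_hgm` as a contract, with the structure `HGM` unbundled. -/
def HgmStatement : Prop :=
  ∀ (M n : ℕ) [NeZero M] [NeZero n], AdmLevel M →
    ∃ (V : Type) (_ : AddCommGroup V) (_ : Module (ZMod n) V)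
      (gal : GQ →* Module.End (ZMod n) V) (T : ℕ → Module.End (ZMod n) V),
      (∀ σ ℓ, Commute (gal σ) (T ℓ)) ∧
      (∀ v : V, ∃ L : IntermediateField ℚ Qb, FiniteDimensional ℚ L ∧
        ∀ σ : GQ, (∀ x ∈ L, σ x = x) → gal σ v = v) ∧
      (∀ ℓ : ℕ, ℓ.Prime → ¬ ℓ ∣ M * n → ∀ A : ValuationSubring Qb, A.LiesOverPrime ℓ →
        ∀ σ : GQ, A.IsFrobeniusAt σ ℓ →
          gal σ * gal σ - T ℓ * gal σ + (ℓ : Module.End (ZMod n) V) = 0) ∧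
      (∀ ℓ : ℕ, ℓ.Prime → ¬ ℓ ∣ M * n → ∀ A : ValuationSubring Qb, A.LiesOverPrime ℓ →
        ∀ σ ∈ A.inertiaSubgroupIn ℚ, gal σ = 1) ∧
      ∃ Ψ : Period.parabolicHoms (ZMod n) (Gamma0 M) (ZMod n) →ₗ[ZMod n] V,
        Function.Injective Ψ ∧
        ∀ ℓ : ℕ, ℓ.Prime → ¬ ℓ ∣ M →
          ∀ P Q : Period.parabolicHoms (ZMod n) (Gamma0 M) (ZMod n),
            (Q : Additive (Gamma0 M) →+ ZMod n) =
              heckeCoh M ℓ (P : Additive (Gamma0 M) →+ ZMod n) →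
            T ℓ (Ψ P) = Ψ Q

/-- The representation obtained from one admissible auxiliary level `M`. -/
theorem exists_rep_level (h1 : HK1Statement) (h2 : HK2Statement) (h3 : CohEigenStatement)
    (h4 : HgmStatement) (hcheb : WeakChebotarev)
    {N M : ℕ} [NeZero M] (hNM : N ∣ M) (hM : AdmLevel M)
    {g : CuspForm (Gamma0 N) 2} (hg : g.IsNormalizedEigenform)
    {p : ℕ} [hp : Fact p.Prime] {κ : Type} [Field κ] [IsAlgClosed κ] [CharP κ p]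
    (φ : integralClosure ℤ ℂ →+* κ) :
    ∃ a : ℕ → integralClosure ℤ ℂ,
      (∀ ℓ : ℕ, ℓ.Prime → ¬ ℓ ∣ N → (a ℓ : ℂ) = ModularFormClass.qCoeff g ℓ) ∧
      ∃ ρ : ResidualGaloisRep κ, IsRigidRep ρ.ρ ∧
        (∀ ℓ : ℕ, ℓ.Prime → ¬ ℓ ∣ M * p → ∀ A : ValuationSubring Qb, A.LiesOverPrime ℓ →
          ∀ σ : GQ, A.IsFrobeniusAt σ ℓ →
            LinearMap.charpoly (ρ.ρ σ) = X ^ 2 - C (φ (a ℓ)) * X + C ((ℓ : κ))) ∧
        (∀ ℓ : ℕ, ℓ.Prime → ¬ ℓ ∣ M * p → ρ.IsUnramifiedAt ℓ) := by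
  letI : Algebra (ZMod p) κ := ZMod.algebra κ p
  haveI : NeZero p := ⟨hp.out.ne_zero⟩
  obtain ⟨a, ha, P, hP, hP0, hev⟩ := h3 hNM hg φ
  obtain ⟨V, _, _, gal, T, comm, smooth, es, inertia, Ψ, hΨ, hT⟩ := h4 M p hM
  obtain ⟨v, hv, hv'⟩ := exists_eigenvector_tensor h1 h2 M p P hP hP0 (fun ℓ => φ (a ℓ)) hev T Ψ
    hΨ hT
  refine ⟨a, ha, ?_⟩
  exact asm_core (mul_ne_zero (NeZero.ne M) hp.out.ne_zero) (dvd_mul_left p M) gal T comm smooth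
    es inertia (fun ℓ => φ (a ℓ)) v hv
    (fun ℓ hℓ hnd => hv' ℓ hℓ fun h => hnd (h.mul_right p)) hcheb

theorem not_dvd_four_or_nine {ℓ m : ℕ} (hℓ : ℓ.Prime) (h : ¬ ℓ ∣ m) :
    ¬ ℓ ∣ 4 * m ∨ ¬ ℓ ∣ 9 * m := by
  by_contra hcon
  rw [not_or, not_not, not_not] at hcon
  obtain ⟨h4, h9⟩ := hcon
  have h4' : ℓ ∣ 2 ^ 2 := by
    rcases (Nat.Prime.dvd_mul hℓ).mp h4 with h' | h'
    · exact h'
    · exact absurd h' h
  have h9' : ℓ ∣ 3 ^ 2 := by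
    rcases (Nat.Prime.dvd_mul hℓ).mp h9 with h' | h'
    · exact h'
    · exact absurd h' h
  have e2 := (Nat.prime_dvd_prime_iff_eq hℓ Nat.prime_two).mp (hℓ.dvd_of_dvd_pow h4')
  have e3 := (Nat.prime_dvd_prime_iff_eq hℓ Nat.prime_three).mp (hℓ.dvd_of_dvd_pow h9')
  omega

/-- (ASM4) **S29 for algebraically closed `κ`**: the levels `4N` and `9N` are glued by rigidity. -/
theorem s29_algClosed_of (h1 : HK1Statement) (h2 : HK2Statement) (h3 : CohEigenStatement)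
    (h4 : HgmStatement) (hcheb : WeakChebotarev)
    {N : ℕ} [NeZero N] {g : CuspForm (Gamma0 N) 2} (hg : g.IsNormalizedEigenform)
    {p : ℕ} (hp : p.Prime) {κ : Type} [Field κ] [IsAlgClosed κ] [CharP κ p]
    (φ : integralClosure ℤ ℂ →+* κ) :
    ∃ ρ : ResidualGaloisRep κ, ρ.IsAttachedTo g φ ∧
      ∀ ℓ : ℕ, ℓ.Prime → ¬ ℓ ∣ N * p → ρ.IsUnramifiedAt ℓ := by
  haveI : Fact p.Prime := ⟨hp⟩
  haveI : NeZero (4 * N) := ⟨mul_ne_zero (by norm_num) (NeZero.ne N)⟩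
  haveI : NeZero (9 * N) := ⟨mul_ne_zero (by norm_num) (NeZero.ne N)⟩
  obtain ⟨a₄, ha₄, ρ₄, hr₄, hc₄, hu₄⟩ := exists_rep_level h1 h2 h3 h4 hcheb
    (dvd_mul_left N 4) (Or.inl (dvd_mul_right 4 N)) hg (p := p) φ
  obtain ⟨a₉, ha₉, ρ₉, _, hc₉, hu₉⟩ := exists_rep_level h1 h2 h3 h4 hcheb
    (dvd_mul_left N 9) (Or.inr (dvd_mul_right 9 N)) hg (p := p) φ
  have hall : ∀ γ : GQ, LinearMap.charpoly (ρ₄.ρ γ) = LinearMap.charpoly (ρ₉.ρ γ) := by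
    refine charpoly_eq_of_frobenius ρ₄ ρ₉ (bad := (4 * N * p) * (9 * N * p))
      (mul_ne_zero (mul_ne_zero (NeZero.ne _) hp.ne_zero) (mul_ne_zero (NeZero.ne _) hp.ne_zero))
      ?_ hcheb
    intro ℓ hℓ hnd A hA σ hσ
    have hnd₄ : ¬ ℓ ∣ 4 * N * p := fun h => hnd (h.mul_right _)
    have hnd₉ : ¬ ℓ ∣ 9 * N * p := fun h => hnd (h.mul_left _)
    have hN : ¬ ℓ ∣ N := fun h => hnd₄ ((h.mul_left 4).mul_right p)
    rw [hc₄ ℓ hℓ hnd₄ A hA σ hσ, hc₉ ℓ hℓ hnd₉ A hA σ hσ,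
      show a₄ ℓ = a₉ ℓ from Subtype.ext ((ha₄ ℓ hℓ hN).trans (ha₉ ℓ hℓ hN).symm)]
  have hcase : ∀ ℓ : ℕ, ℓ.Prime → ¬ ℓ ∣ N * p → ¬ ℓ ∣ 4 * N * p ∨ ¬ ℓ ∣ 9 * N * p := by
    intro ℓ hℓ hnd
    have := not_dvd_four_or_nine hℓ hnd
    rwa [← mul_assoc, ← mul_assoc] at this
  refine ⟨ρ₄, ?_, ?_⟩
  · intro ℓ hℓ hℓN hℓκ A hA σ hσ
    have hne : ℓ ≠ p := by
      rintro rfl
      exact hℓκ (CharP.cast_eq_zero κ ℓ)
    have hnd : ¬ ℓ ∣ N * p := by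
      intro h
      rcases (Nat.Prime.dvd_mul hℓ).mp h with h' | h'
      · exact hℓN h'
      · exact hne ((Nat.prime_dvd_prime_iff_eq hℓ hp).mp h')
    rcases hcase ℓ hℓ hnd with h' | h'
    · exact ⟨a₄ ℓ, ha₄ ℓ hℓ hℓN, hc₄ ℓ hℓ h' A hA σ hσ⟩
    · exact ⟨a₉ ℓ, ha₉ ℓ hℓ hℓN, (hall σ).trans (hc₉ ℓ hℓ h' A hA σ hσ)⟩
  · intro ℓ hℓ hnd
    rcases hcase ℓ hℓ hnd with h' | h'
    · exact hu₄ ℓ hℓ h'
    · exact isUnramifiedAt_of_charpoly_eq ρ₄ ρ₉ hr₄ hall (hu₉ ℓ hℓ h')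

/-- **The statement of S29** from the deliverables of the blocks. -/
theorem S29_of_contracts (h1 : HK1Statement) (h2 : HK2Statement) (h3 : CohEigenStatement)
    (h4 : HgmStatement) (hcheb : WeakChebotarev)
    {N : ℕ} {g : CuspForm (CongruenceSubgroup.Gamma0 N) 2} (hg : g.IsNormalizedEigenform)
    {p : ℕ} (hp : p.Prime) {k : Type} [Field k] [CharP k p]
    (φ : integralClosure ℤ ℂ →+* k) :
    ∃ ρ : ResidualGaloisRep k, ρ.IsAttachedTo g φ ∧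
      ∀ ℓ : ℕ, ℓ.Prime → ¬ ℓ ∣ N * p → ρ.IsUnramifiedAt ℓ := by
  rcases eq_or_ne N 0 with rfl | hN
  · refine ⟨trivialRep k, ?_, ?_⟩
    · intro ℓ _ h
      exact absurd (dvd_zero ℓ) h
    · intro ℓ _ _ A _ σ _
      rfl
  haveI : NeZero N := ⟨hN⟩
  have h𝔪 : (RingHom.ker φ).IsMaximal := isMaximal_ker_of_charP p hp φ
  have hp𝔪 : (p : Zbar) ∈ RingHom.ker φ := by
    rw [RingHom.mem_ker, map_natCast]
    exact CharP.cast_eq_zero k p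
  letI := Ideal.Quotient.field (RingHom.ker φ)
  haveI : IsAlgClosed (Zbar ⧸ RingHom.ker φ) := isAlgClosed_quotient (RingHom.ker φ)
  haveI : CharP (Zbar ⧸ RingHom.ker φ) p := by
    rw [CharP.charP_iff_prime_eq_zero hp]
    have := Ideal.Quotient.eq_zero_iff_mem.mpr hp𝔪
    simpa using this
  obtain ⟨ρ, hρ1, hρ2⟩ := s29_algClosed_of h1 h2 h3 h4 hcheb hg hp
    (Ideal.Quotient.mk (RingHom.ker φ))
  refine ⟨ρ.baseChangeAlong (RingHom.kerLift φ), ?_, ?_⟩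
  · have h5 := isAttachedTo_baseChangeAlong (RingHom.kerLift φ) ρ g _ hρ1
    have h6 : (RingHom.kerLift φ).comp (Ideal.Quotient.mk (RingHom.ker φ)) = φ := by
      ext x
      rfl
    rwa [h6] at h5
  · intro ℓ hℓ hnd
    exact isUnramifiedAt_baseChangeAlong _ ρ (hρ2 ℓ hℓ hnd)

end Fermat.Agent.GAL
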